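import Mathlib
import Fermat.Agent.LT.T6.Spec
import Fermat.Agent.LT.T6.SpecArch

/-!
# Row LT, tower T6, station T6.20 (`ArchMatchC`): THE CUT, level 1 (helper626, sub-architect)

OFF-MAIN.  Vocabulary: `LT/T6/Spec.lean` v3 (sha256 8c5f2ae7) and `LT/T6/SpecArch.lean`
(sha256 003240b2) of helper22, byte-identical copies.  Definitions and Props only, plus the
PROVED tops `geoMatch_of_parts626` and `archMatchC_of_cut626`; nothing is assumed.

## The hinge: the Abel relation on the positive diagonal torus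

For `a, b > 0` put `F_f(a, b) = ∫_ℝ f(diag(a,b) n(x)) dx` on `GL₂(ℝ)` and
`F_φ(α, β) = ∫_ℂ φ(diag(α,β) n(w)) dw` on `GL₂(ℂ)` (Lebesgue measures of `ℝ` and of `ℂ`).
`IsAbelRel626 c φ f₀ f₁` :  `F_{f₀}(a, b) = F_{f₁}(a, b) = c · F_φ(√a, √b)` for all `a, b > 0`.

In radial coordinates (`t = log (a / b)`, `D = a b`, `f₀ = g₀(det, ρ)`,
`f₁ = (wtPhase n)⁻¹ · g₁(det, ρ)`, `φ = Φ(|det|, ρ)`, `(A g)(r) = ∫_ℝ g(r + u²) du`,
`Ψ(D, x) = ∫_x^∞ Φ(D, v) dv`):
* `F_{f₀}(a, b) = √2 e^{-t/2} (A g₀(D, ·))(cosh t)`,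
* `F_{f₁}(a, b) = √2 e^{-t/2} cosh(t/2) (A G₁(D, ·))(cosh t)`, `G₁ = g₁ / √((ρ + 1) / 2)`
  (the imaginary part of the phase is odd in `x`),
* `F_φ(√a, √b) = 2π e^{-t/2} Ψ(√D, cosh (t/2))`,
so the relation is `√2 (A g₀(D,·))(r) = 2π c Ψ(√D, √((r+1)/2))` and the same with
`cosh(t/2) · A G₁`; Abel inversion `g(ρ) = -(1/π) ∫ (A g)'(ρ + v²) dv` gives the CLOSED FORMS
(`x_v = √((ρ + 1 + v²) / 2)`, no derivative of `Φ` occurs):
`g₀(D, ρ) = (√2 c / 4) ∫_ℝ Φ(√D, x_v) / x_v dv`,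
`g₁(D, ρ) = (√2 c / 4) √((ρ+1)/2) ∫_ℝ (Φ(√D, x_v) / x_v² + Ψ(√D, x_v) / x_v³) dv`.

## Level 1 (registry rows `T6.20a`, `T6.20b`, `T6.20c`)

* `AbelExistC626` (T6.20a, = the group form of T6.24): for EVERY constant `c`, every test function
  `φ` has test functions `f₀` (weight `0`), `f₁` (weight `n = ±1`) in the Abel relation.
* `GeoMatchC626` (T6.20b): for all Haar measures there is ONE constant `c > 0` such that the
  Abel relation with constant `c` implies the geometric matching of `f₀ + f₁` with `φ`.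
* `SpecRelC626` (T6.20c, = T6.29): for all Haar measures and EVERY `c ≠ 0` there are
  `c₀, c₁ ≠ 0` such that the Abel relation with constant `c` implies the two spectral relations.

`archMatchC_of_cut626 : AbelExistC626 → GeoMatchC626 → SpecRelC626 → ArchMatchC` (PROVED).

## Level 2 for `GeoMatchC626` (rows `T6.20d`, `T6.20e`)

A regular `γ ∈ GL₂(ℝ)` has `disc γ > 0` (real eigenvalues) or `disc γ < 0` (elliptic).
* `HypMatchC626` (T6.20d, = T6.25 incl. the non-norms): ONE constant `c > 0` works on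
  `{disc > 0}` (matching at the norms `= det > 0` and both eigenvalues `> 0`; vanishing when
  `det < 0` [support] and when both eigenvalues are `< 0` [`F_{f₀} = F_{f₁}`,
  `f₀(-g) = f₀(g)`, `f₁(-g) = -f₁(g)`]).
* `EllMatchC626` (T6.20e, = T6.26 + T6.27 + T6.28): EVERY constant `c > 0` which works on
  `{disc > 0}` works on `{disc < 0}`.  (Such a constant is unique: test it on one `φ ≥ 0`,
  `φ ≠ 0`; `AbelExistC626` is a hypothesis of the leaf for that purpose.  So the owner proves the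
  elliptic identity for the constant of the Iwasawa decompositions.)

`geoMatch_of_parts626 : AbelExistC626 → HypMatchC626 → EllMatchC626 → GeoMatchC626` (PROVED).
-/

set_option autoImplicit false

open scoped Matrix ContDiff
open MeasureTheory

noncomputable section

namespace Fermat.Agent.LT.T6.H626

open Fermat.Agent.LT.T6

/-! ## 1. The hinge -/

/-- **The Abel relation** with constant `c` between `φ` on `GL₂(ℂ)` and `f₀`, `f₁` on `GL₂(ℝ)`:
for all `a, b > 0`,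
`∫_ℝ f₀(!![a, a x; 0, b]) dx = ∫_ℝ f₁(!![a, a x; 0, b]) dx = c ∫_ℂ φ(!![√a, √a w; 0, √b]) dw`.
(The elements are given by arbitrary sections `u`, `u'` with the prescribed matrices.) -/
def IsAbelRel626 (c : ℂ) (φ : GL (Fin 2) ℂ → ℂ) (f₀ f₁ : GL (Fin 2) ℝ → ℂ) : Prop :=
  ∀ a b : ℝ, 0 < a → 0 < b →
    ∀ (u : ℝ → GL (Fin 2) ℝ) (u' : ℂ → GL (Fin 2) ℂ),
      (∀ x : ℝ, ((u x : GL (Fin 2) ℝ) : Matrix (Fin 2) (Fin 2) ℝ) = !![a, a * x; 0, b]) →
      (∀ w : ℂ, ((u' w : GL (Fin 2) ℂ) : Matrix (Fin 2) (Fin 2) ℂ)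
        = !![((Real.sqrt a : ℝ) : ℂ), ((Real.sqrt a : ℝ) : ℂ) * w; 0, ((Real.sqrt b : ℝ) : ℂ)]) →
      (∫ x : ℝ, f₀ (u x)) = c * ∫ w : ℂ, φ (u' w) ∧
      (∫ x : ℝ, f₁ (u x)) = c * ∫ w : ℂ, φ (u' w)

/-- Geometric matching (`SpecArch.IsArchMatch`) restricted to the regular `γ` with `P γ`. -/
def IsArchMatchOn626 (P : GL (Fin 2) ℝ → Prop)
    (μ : @Measure (GL (Fin 2) ℝ) (borel _)) (μ' : @Measure (GL (Fin 2) ℂ) (borel _))
    (φ : GL (Fin 2) ℂ → ℂ) (f : GL (Fin 2) ℝ → ℂ) : Prop :=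
  ∀ γ : GL (Fin 2) ℝ, IsReg γ → P γ →
    ∀ μT : @Measure (twCentSub (MonoidHom.id (GL (Fin 2) ℝ)) γ) (borel _),
      @Measure.IsHaarMeasure _ _ _ (borel _) μT →
    ∀ β : GL (Fin 2) ℝ → ℝ, Continuous β → (∀ x, 0 ≤ β x) →
      (∀ x : GL (Fin 2) ℝ,
        @integral _ _ _ _ (borel _) μT
          (fun t : twCentSub (MonoidHom.id (GL (Fin 2) ℝ)) γ =>
            β ((t : GL (Fin 2) ℝ) * x)) = 1) →
      (∀ δ : GL (Fin 2) ℂ,
        twNorm (starRingAut : ℂ ≃+* ℂ) 2 δ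
          = Matrix.GeneralLinearGroup.map (algebraMap ℝ ℂ) γ →
        ∀ β' : GL (Fin 2) ℂ → ℝ, Continuous β' → (∀ x, 0 ≤ β' x) →
          (∀ x : GL (Fin 2) ℂ,
            @integral _ _ _ _ (borel _) μT
              (fun t : twCentSub (MonoidHom.id (GL (Fin 2) ℝ)) γ =>
                β' (Matrix.GeneralLinearGroup.map (algebraMap ℝ ℂ) (t : GL (Fin 2) ℝ) * x))
              = 1) →
          @integral _ _ _ _ (borel _) μ
              (fun x : GL (Fin 2) ℝ => f (x⁻¹ * γ * x) * (β x : ℂ))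
            = @integral _ _ _ _ (borel _) μ'
              (fun x : GL (Fin 2) ℂ =>
                φ (x⁻¹ * δ * glAut (starRingAut : ℂ ≃+* ℂ) x) * (β' x : ℂ))) ∧
      (¬ IsNormFrom 2 (algebraMap ℝ ℂ) (starRingAut : ℂ ≃+* ℂ) γ →
        @integral _ _ _ _ (borel _) μ
          (fun x : GL (Fin 2) ℝ => f (x⁻¹ * γ * x) * (β x : ℂ)) = 0)

/-- The matching on all regular elements is the matching of `SpecArch`. -/
theorem isArchMatch_iff_on626 (μ : @Measure (GL (Fin 2) ℝ) (borel _))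
    (μ' : @Measure (GL (Fin 2) ℂ) (borel _)) (φ : GL (Fin 2) ℂ → ℂ) (f : GL (Fin 2) ℝ → ℂ) :
    IsArchMatch μ μ' φ f ↔ IsArchMatchOn626 (fun _ => True) μ μ' φ f :=
  ⟨fun h γ hγ _ => h γ hγ, fun h γ hγ => h γ hγ trivial⟩

/-- A regular element of `GL₂(ℝ)` has positive or negative discriminant. -/
theorem disc_pos_or_neg626 (γ : GL (Fin 2) ℝ) (h : IsReg γ) : 0 < disc γ ∨ disc γ < 0 := by
  have h0 : disc γ ≠ 0 := h.ne_zero
  rcases lt_trichotomy (disc γ) 0 with h1 | h1 | h1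
  · exact Or.inr h1
  · exact absurd h1 h0
  · exact Or.inl h1

/-- The matching from the matching on `{disc > 0}` and on `{disc < 0}`. -/
theorem isArchMatch_of_hyp_ell626 (μ : @Measure (GL (Fin 2) ℝ) (borel _))
    (μ' : @Measure (GL (Fin 2) ℂ) (borel _)) (φ : GL (Fin 2) ℂ → ℂ) (f : GL (Fin 2) ℝ → ℂ)
    (hh : IsArchMatchOn626 (fun γ => 0 < disc γ) μ μ' φ f)
    (he : IsArchMatchOn626 (fun γ => disc γ < 0) μ μ' φ f) : IsArchMatch μ μ' φ f := by
  intro γ hγ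
  rcases disc_pos_or_neg626 γ hγ with h | h
  · exact hh γ hγ h
  · exact he γ hγ h

/-! ## 2. Level 1 -/

/-- **T6.20a (existence, group form of the Abel inversion T6.24).**  For every constant `c`,
every weight `n = ±1` and every test function `φ` on `GL₂(ℂ)` there are test functions `f₀` of
weight `0` and `f₁` of weight `n` on `GL₂(ℝ)` in the Abel relation with constant `c`.
(Closed forms of the profiles: header.  Smoothness at `ρ = 1`: either the even function theorem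
for the profile of `φ`, or the closed forms as integrals of `φ` over smooth families of
matrices.) -/
def AbelExistC626 : Prop :=
  ∀ (c : ℂ) (n : ℤ), n = 1 ∨ n = -1 →
    ∀ φ : GL (Fin 2) ℂ → ℂ, IsArchTestC φ →
      ∃ f₀ f₁ : GL (Fin 2) ℝ → ℂ, IsArchTestR 0 f₀ ∧ IsArchTestR n f₁ ∧ IsAbelRel626 c φ f₀ f₁

/-- `c` is a matching constant of `μ`, `μ'` on the regular elements with `P`: the Abel relation
with constant `c` implies the geometric matching of `f₀ + f₁` with `φ` there. -/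
def IsMatchConstOn626 (P : GL (Fin 2) ℝ → Prop)
    (μ : @Measure (GL (Fin 2) ℝ) (borel _)) (μ' : @Measure (GL (Fin 2) ℂ) (borel _))
    (c : ℝ) : Prop :=
  ∀ n : ℤ, n = 1 ∨ n = -1 →
    ∀ (φ : GL (Fin 2) ℂ → ℂ) (f₀ f₁ : GL (Fin 2) ℝ → ℂ),
      IsArchTestC φ → IsArchTestR 0 f₀ → IsArchTestR n f₁ → IsAbelRel626 (c : ℂ) φ f₀ f₁ →
      IsArchMatchOn626 P μ μ' φ (fun g => f₀ g + f₁ g)

/-- **T6.20b (geometric matching from the Abel relation).**  For all Haar measures there is a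
constant `c > 0` such that the Abel relation with constant `c` implies the geometric matching at
every regular `γ`. -/
def GeoMatchC626 : Prop :=
  ∀ (μ : @Measure (GL (Fin 2) ℝ) (borel _)) (μ' : @Measure (GL (Fin 2) ℂ) (borel _)),
    @Measure.IsHaarMeasure _ _ _ (borel _) μ → @Measure.IsHaarMeasure _ _ _ (borel _) μ' →
    ∃ c : ℝ, 0 < c ∧ IsMatchConstOn626 (fun _ => True) μ μ' c

/-- **T6.20c (spectral relation from the Abel relation, = T6.29).**  For all Haar measures, every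
constant `c ≠ 0` and every weight `n = ±1` there are constants `c₀, c₁ ≠ 0` such that the Abel
relation with constant `c` implies `sphTransR f₀ s = c₀ sphTransC φ (2 s)` and
`sphTransR f₁ s = c₁ sphTransC φ (2 s)` for all `s ∈ ℂ`.
(`∫ f Q_s dμ = const ∫_{a,b>0} F_f(a,b) (a/b)^{s+1/2} d^×a d^×b`,
`∫ φ R_ν dμ' = const ∫_{α,β>0} F_φ(α,β) (α/β)^{ν+1} d^×α d^×β`, `(a, b) = (α², β²)`.) -/
def SpecRelC626 : Prop :=
  ∀ (μ : @Measure (GL (Fin 2) ℝ) (borel _)) (μ' : @Measure (GL (Fin 2) ℂ) (borel _)),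
    @Measure.IsHaarMeasure _ _ _ (borel _) μ → @Measure.IsHaarMeasure _ _ _ (borel _) μ' →
    ∀ c : ℂ, c ≠ 0 → ∀ n : ℤ, n = 1 ∨ n = -1 →
    ∃ c₀ c₁ : ℂ, c₀ ≠ 0 ∧ c₁ ≠ 0 ∧
      ∀ (φ : GL (Fin 2) ℂ → ℂ) (f₀ f₁ : GL (Fin 2) ℝ → ℂ),
        IsArchTestC φ → IsArchTestR 0 f₀ → IsArchTestR n f₁ → IsAbelRel626 c φ f₀ f₁ →
        (∀ s : ℂ, sphTransR μ 0 f₀ s = c₀ * sphTransC μ' φ (2 * s)) ∧
        (∀ s : ℂ, sphTransR μ n f₁ s = c₁ * sphTransC μ' φ (2 * s))

/-- **TOP of the station T6.20**: `ArchMatchC` from the three parts. -/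
theorem archMatchC_of_cut626 (hE : AbelExistC626) (hG : GeoMatchC626) (hS : SpecRelC626) :
    ArchMatchC := by
  intro μ μ' hμ hμ' n hn
  obtain ⟨c, hc, hM⟩ := hG μ μ' hμ hμ'
  have hc' : (c : ℂ) ≠ 0 := by exact_mod_cast hc.ne'
  obtain ⟨c₀, c₁, h0, h1, hSp⟩ := hS μ μ' hμ hμ' (c : ℂ) hc' n hn
  refine ⟨c₀, c₁, h0, h1, fun φ hφ => ?_⟩
  obtain ⟨f₀, f₁, hf₀, hf₁, hA⟩ := hE (c : ℂ) n hn φ hφ
  have hm := hM n hn φ f₀ f₁ hφ hf₀ hf₁ hA
  have hs := hSp φ f₀ f₁ hφ hf₀ hf₁ hA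
  exact ⟨f₀, f₁, hf₀, hf₁, (isArchMatch_iff_on626 μ μ' φ _).2 hm, hs.1, hs.2⟩

/-! ## 3. Level 2 for `GeoMatchC626` -/

/-- **T6.20d (hyperbolic part, = T6.25 with the non-norms).**  For all Haar measures there is a
constant `c > 0` which is a matching constant on `{disc > 0}`.
(`O_γ(f) = (κ π / λ) |1 - b/a|⁻¹ F_f(a, b)` for `γ ∼ diag(a, b)` and `f` invariant under the
conjugation by `SO(2)`; `TO_δ(φ) = (κ' · const / λ) |1 - b/a|⁻¹ F_φ(√a, √b)`; `κ`, `κ'` the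
constants of the Iwasawa decompositions of `μ`, `μ'`, `λ` the one of `μT`.) -/
def HypMatchC626 : Prop :=
  ∀ (μ : @Measure (GL (Fin 2) ℝ) (borel _)) (μ' : @Measure (GL (Fin 2) ℂ) (borel _)),
    @Measure.IsHaarMeasure _ _ _ (borel _) μ → @Measure.IsHaarMeasure _ _ _ (borel _) μ' →
    ∃ c : ℝ, 0 < c ∧ IsMatchConstOn626 (fun γ => 0 < disc γ) μ μ' c

/-- **T6.20e (elliptic part, = T6.26 + T6.27 + T6.28).**  Every constant `c > 0` which is a
matching constant on `{disc > 0}` is a matching constant on `{disc < 0}`.  (`AbelExistC626` is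
available as a hypothesis: the matching constant on `{disc > 0}` is unique.) -/
def EllMatchC626 : Prop :=
  AbelExistC626 →
  ∀ (μ : @Measure (GL (Fin 2) ℝ) (borel _)) (μ' : @Measure (GL (Fin 2) ℂ) (borel _)),
    @Measure.IsHaarMeasure _ _ _ (borel _) μ → @Measure.IsHaarMeasure _ _ _ (borel _) μ' →
    ∀ c : ℝ, 0 < c → IsMatchConstOn626 (fun γ => 0 < disc γ) μ μ' c →
      IsMatchConstOn626 (fun γ => disc γ < 0) μ μ' c

/-- `GeoMatchC626` from its two parts. -/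
theorem geoMatch_of_parts626 (hE : AbelExistC626) (hH : HypMatchC626) (hL : EllMatchC626) :
    GeoMatchC626 := by
  intro μ μ' hμ hμ'
  obtain ⟨c, hc, hM⟩ := hH μ μ' hμ hμ'
  have hM' := hL hE μ μ' hμ hμ' c hc hM
  refine ⟨c, hc, fun n hn φ f₀ f₁ hφ hf₀ hf₁ hA => ?_⟩
  exact (isArchMatch_iff_on626 μ μ' φ _).1
    (isArchMatch_of_hyp_ell626 μ μ' φ _ (hM n hn φ f₀ f₁ hφ hf₀ hf₁ hA)
      (hM' n hn φ f₀ f₁ hφ hf₀ hf₁ hA))

/-- **TOP of the station T6.20, level 2.** -/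
theorem archMatchC_of_cut2_626 (hE : AbelExistC626) (hH : HypMatchC626) (hL : EllMatchC626)
    (hS : SpecRelC626) : ArchMatchC :=
  archMatchC_of_cut626 hE (geoMatch_of_parts626 hE hH hL) hS

end Fermat.Agent.LT.T6.H626

end
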