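import Fermat.Agent.LT.T6.H626.Closed626f
import Fermat.Agent.LT.T6.H842.EllFinalR

/-!
# Row LT, tower T6, station T6.20: `ArchMatchC` CLOSED (helper626, sub-architect, integrator)

OFF-MAIN.  ONE closure, byte-identical copies of the files of the owners.

`archMatchC626 : T6.ArchMatchC` (P7, archimedean matching `ℂ/ℝ`, `T6/SpecArch.lean` 003240b2),
UNCONDITIONAL.

| part | Prop | closed by |
|---|---|---|
| T6.20a | `H626.AbelExistC626` | route H (helper626 cut; leaves 283 698 290 729 3 922 501 439 904 944) |
| T6.20c | `H626.SpecRelC626` | helper830 (`specRelC626_830`, = T6.29) |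
| T6.20d | `H634.HypExplC634` | helper855 (`hypExplC_closed855`) |
| T6.20e | `H634.EllValueC634` | helper634 (cut, tops), helper833 (`ProfAbelC634`), helper842 (`EllRealC634`), helper75 (`EllTwC634`), helper781 (`ArchEllIdC`), helper189 (`ArchIntOut`) |
-/

set_option autoImplicit false

noncomputable section

namespace Fermat.Agent.LT.T6.H626

open Fermat.Agent.LT.T6

/-- **T6.20b CLOSED: geometric matching from the Abel relation.** -/
theorem geoMatchC626_closed : GeoMatchC626 :=
  geoMatch_open626e H842.ellRealC634_842 H75.ellTwC634_75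

/-- **T6.20 CLOSED: P7, the archimedean matching for `ℂ/ℝ`.** -/
theorem archMatchC626 : ArchMatchC :=
  archMatchC_open626f H842.ellRealC634_842

end Fermat.Agent.LT.T6.H626

end
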