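import Mathlib
import Fermat.Agent.LT.T6.Spec
import Fermat.Agent.LT.T6.SpecArch
import Fermat.Agent.LT.T6.H626.ArchCut
import Fermat.Agent.LT.T6.H830.HCSpec

/-!
# Row LT, tower T6, station T6.20a (`AbelExistC626`): THE CUT, route H (helper626, sub-architect)

OFF-MAIN.  Vocabulary: `LT/T6/SpecArch.lean` (helper22, sha256 003240b2), `H626/ArchCut.lean`
(sha256 fac998d4), `H830/HCSpec.lean` (helper830, sha256 c3e7d846), byte-identical copies.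
Definitions, Props and the PROVED tops; nothing is assumed.

## Route H: closed forms through a smooth Hermitian family (NO even-function theorem)

For `y ∈ GL₂(ℝ)`, `D = det y > 0`, `ρ = rhoR y`, `v ∈ ℝ` put `x_v = √((ρ + 1 + v²)/2)` and
`M_v(y) = (D^{1/4} / (2 √(x_v + 1))) · [[√2 (x_v + 1) + h₁, h₂ - i v], [h₂ + i v, √2 (x_v + 1) - h₁]]`,
`h₁ = (y₀₀ - y₁₁)/√(2D)`, `h₂ = (y₀₁ + y₁₀)/√(2D)` (`h₁² + h₂² = ρ - 1`).  `M_v(y)` is Hermitian,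
`det M_v(y) = √D`, `rhoC (M_v(y)) = x_v` (`famAlg626`, PROVED in `H626/FamAlg.lean`), and its entries are smooth
functions of `(v, y)` on `det y > 0` (also at `ρ = 1`).  The functions

* `abelF0_626 c φ y = (√2 c / 4) ∫_ℝ φ(M_v(y)) / x_v dv`,
* `abelF1_626 c n φ y = (√2 c / 4) (j_n(y) / (√D (ρ + 1))) ∫_ℝ φ(M_v(y)) dv`,
  `j₁ = 2 conj (holPart y)`, `j₋₁ = 2 holPart y`

(zero on `det y < 0`) are test functions of weight `0`, `n` in the Abel relation with constant `c`.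

## Leaves (registry rows `T6.20a.x`)

* `FamSmoothC626` (Mathlib only): the entries of `(v, t) ↦ M_v(h t)` are smooth.
* `ParamIntC626` (Mathlib only): a parametric integral of a smooth function with uniformly
  compact support in the integration variable is smooth.
* `F0SmoothOfC626`, `F1SmoothOfC626`: the field `smooth` of `IsArchTestR` for the closed forms.
* `F0SoftOfC626`, `F1SoftOfC626`: the fields `cont`, `supp`, `left`, `right`.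
* `RadInt0C626`, `RadInt1C626` (Mathlib only): two radial integrals over `ℝ²`.
* `F0AbelOfC626`, `F1AbelOfC626`: the Abel relation for the closed forms.

`abelExist_of_routeH626` (PROVED): all leaves + `H830.CartanCC` + `H830.WIntCC` (both DONE:
helper283, helper841) give `AbelExistC626`.
-/

set_option autoImplicit false

open scoped Matrix ContDiff
open MeasureTheory

noncomputable section

namespace Fermat.Agent.LT.T6.H626

open Fermat.Agent.LT.T6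

/-! ## 1. The Hermitian family -/

/-- The element of `GL₂(ℂ)` with matrix `M` (`1` if `det M = 0`). -/
def toGLC626 (M : Matrix (Fin 2) (Fin 2) ℂ) : GL (Fin 2) ℂ :=
  if h : M.det ≠ 0 then Matrix.GeneralLinearGroup.mkOfDetNeZero M h else 1

/-- `x_v(ρ) = √((ρ + 1 + v²) / 2)`. -/
def xv626 (ρ v : ℝ) : ℝ := Real.sqrt ((ρ + 1 + v ^ 2) / 2)

/-- `ρ` of a real matrix (`rhoR y = rhoM626 y` for `y ∈ GL₂(ℝ)`). -/
def rhoM626 (y : Matrix (Fin 2) (Fin 2) ℝ) : ℝ :=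
  (y.transpose * y).trace / (2 * |y.det|)

/-- `h₁ = (y₀₀ - y₁₁) / √(2 det y)`. -/
def famH1_626 (y : Matrix (Fin 2) (Fin 2) ℝ) : ℝ := (y 0 0 - y 1 1) / Real.sqrt (2 * y.det)

/-- `h₂ = (y₀₁ + y₁₀) / √(2 det y)`. -/
def famH2_626 (y : Matrix (Fin 2) (Fin 2) ℝ) : ℝ := (y 0 1 + y 1 0) / Real.sqrt (2 * y.det)

/-- The scalar `(det y)^{1/4} / (2 √(x + 1))`. -/
def famScal626 (y : Matrix (Fin 2) (Fin 2) ℝ) (x : ℝ) : ℝ :=
  Real.sqrt (Real.sqrt y.det) / (2 * Real.sqrt (x + 1))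

/-- **The Hermitian family** `M_v(y)`. -/
def famMat626 (y : Matrix (Fin 2) (Fin 2) ℝ) (v : ℝ) : Matrix (Fin 2) (Fin 2) ℂ :=
  ((famScal626 y (xv626 (rhoM626 y) v) : ℝ) : ℂ) •
    !![((Real.sqrt 2 * (xv626 (rhoM626 y) v + 1) + famH1_626 y : ℝ) : ℂ),
        ((famH2_626 y : ℝ) : ℂ) - ((v : ℝ) : ℂ) * Complex.I;
      ((famH2_626 y : ℝ) : ℂ) + ((v : ℝ) : ℂ) * Complex.I,
        ((Real.sqrt 2 * (xv626 (rhoM626 y) v + 1) - famH1_626 y : ℝ) : ℂ)]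

/-- `j_n`: `2 conj (holPart y)` for `n = 1`, `2 holPart y` otherwise (`n = -1`). -/
def jn626 (n : ℤ) (y : GL (Fin 2) ℝ) : ℂ :=
  if n = 1 then 2 * (starRingEnd ℂ) (holPart y) else 2 * holPart y

/-- **The closed form of weight `0`.** -/
def abelF0_626 (c : ℂ) (φ : GL (Fin 2) ℂ → ℂ) (y : GL (Fin 2) ℝ) : ℂ :=
  if 0 < (y : Matrix (Fin 2) (Fin 2) ℝ).det then
    ((Real.sqrt 2 / 4 : ℝ) : ℂ) * c *
      ∫ v : ℝ, φ (toGLC626 (famMat626 (y : Matrix (Fin 2) (Fin 2) ℝ) v)) /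
        ((xv626 (rhoR y) v : ℝ) : ℂ)
  else 0

/-- **The closed form of weight `n = ±1`.** -/
def abelF1_626 (c : ℂ) (n : ℤ) (φ : GL (Fin 2) ℂ → ℂ) (y : GL (Fin 2) ℝ) : ℂ :=
  if 0 < (y : Matrix (Fin 2) (Fin 2) ℝ).det then
    ((Real.sqrt 2 / 4 : ℝ) : ℂ) * c *
      (jn626 n y /
        ((Real.sqrt (y : Matrix (Fin 2) (Fin 2) ℝ).det * (rhoR y + 1) : ℝ) : ℂ)) *
      ∫ v : ℝ, φ (toGLC626 (famMat626 (y : Matrix (Fin 2) (Fin 2) ℝ) v))
  else 0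

theorem rhoR_eq_rhoM626 (y : GL (Fin 2) ℝ) : rhoR y = rhoM626 (y : Matrix (Fin 2) (Fin 2) ℝ) :=
  rfl

/-! ## 2. Leaves: smoothness -/

/-- **T6.20a.1 FAM-SMOOTH** (Mathlib only): for a smooth family `h` of real matrices of positive
determinant the entries of `(v, t) ↦ M_v(h t)` are smooth on `ℝ^{m+1}` (`p 0 = v`,
`Fin.tail p = t`).  (`ρ + 1 ≥ 2`, so `x_v ≥ 1`; all square roots are of positive smooth
functions.) -/
def FamSmoothC626 : Prop :=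
  ∀ (m : ℕ) (h : (Fin m → ℝ) → Matrix (Fin 2) (Fin 2) ℝ),
    (∀ i j : Fin 2, ContDiff ℝ ∞ (fun t => h t i j)) → (∀ t, 0 < (h t).det) →
    ∀ i j : Fin 2,
      ContDiff ℝ ∞ (fun p : Fin (m + 1) → ℝ => famMat626 (h (Fin.tail p)) (p 0) i j)

/-- **T6.20a.2 PARAM-INT** (Mathlib only): if `G` is smooth on `ℝ^{m+1}` and vanishes for
`|p 0| > V`, then `t ↦ ∫_ℝ G(v, t) dv` is smooth on `ℝ^m`.
(E.g. `contDiffOn_convolution_right_with_param` with `f = 1`.) -/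
def ParamIntC626 : Prop :=
  ∀ (m : ℕ) (G : (Fin (m + 1) → ℝ) → ℂ), ContDiff ℝ ∞ G →
    (∃ V : ℝ, ∀ p : Fin (m + 1) → ℝ, V < |p 0| → G p = 0) →
    ContDiff ℝ ∞ (fun t : Fin m → ℝ => ∫ v : ℝ, G (Fin.cons v t : Fin (m + 1) → ℝ))

/-- The field `smooth` of `IsArchTestR` for a function `f`. -/
def IsSmoothR626 (f : GL (Fin 2) ℝ → ℂ) : Prop :=
  ∀ (m : ℕ) (h : (Fin m → ℝ) → GL (Fin 2) ℝ),
    (∀ i j : Fin 2, ContDiff ℝ ∞ (fun t => ((h t : GL (Fin 2) ℝ) : Matrix (Fin 2) (Fin 2) ℝ) i j)) →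
    ∀ g : GL (Fin 2) ℝ, ContDiff ℝ ∞ (fun t => f (g * h t))

/-- The fields `cont`, `supp`, `left`, `right` of `IsArchTestR n` for a function `f`. -/
def IsSoftR626 (n : ℤ) (f : GL (Fin 2) ℝ → ℂ) : Prop :=
  Continuous f ∧ HasCompactSupport f ∧
    (∀ k g : GL (Fin 2) ℝ, InSO2 k → f (k * g) = (wtChar n k)⁻¹ * f g) ∧
    (∀ k g : GL (Fin 2) ℝ, InSO2 k → f (g * k) = (wtChar n k)⁻¹ * f g)

/-- **T6.20a.3 F0-SMOOTH**: the closed form of weight `0` is smooth along every smooth family.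
(`det (g h(t))` has a constant sign; if it is positive, apply `IsArchTestC.smooth` to the family
`(v, t) ↦ toGLC626 (M_v(g h(t)))` [`FamSmoothC626`, `famAlg626`] and `ParamIntC626`;
`φ(M_v) ≠ 0` gives `x_v = rhoC (M_v) ≤ R`, so `|v| ≤ √2 R`.) -/
def F0SmoothOfC626 : Prop :=
  FamSmoothC626 → ParamIntC626 →
    ∀ (c : ℂ) (φ : GL (Fin 2) ℂ → ℂ), IsArchTestC φ → IsSmoothR626 (abelF0_626 c φ)

/-- **T6.20a.4 F1-SMOOTH**: the closed form of weight `n = ±1` is smooth along every smooth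
family. -/
def F1SmoothOfC626 : Prop :=
  FamSmoothC626 → ParamIntC626 →
    ∀ (c : ℂ) (n : ℤ), n = 1 ∨ n = -1 →
      ∀ φ : GL (Fin 2) ℂ → ℂ, IsArchTestC φ → IsSmoothR626 (abelF1_626 c n φ)

/-! ## 3. Leaves: the soft fields -/

/-- **T6.20a.5 F0-SOFT**: the closed form of weight `0` is continuous, compactly supported and
bi-`SO(2)`-invariant.  (`φ(M_v(y))` depends on `(det y, rhoR y, v)` only: `famAlg626` and
`H830.CartanCC`; support: `√(det y) = |det M_v(y)|` and `x_v ≥ √((rhoR y + 1)/2)` are bounded on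
the support of `φ`.) -/
def F0SoftOfC626 : Prop :=
  H830.CartanCC →
    ∀ (c : ℂ) (φ : GL (Fin 2) ℂ → ℂ), IsArchTestC φ → IsSoftR626 0 (abelF0_626 c φ)

/-- **T6.20a.6 F1-SOFT**: the closed form of weight `n = ±1` is continuous, compactly supported
and of weight `n` on both sides (`holPart (k y) = holPart k · holPart y = holPart (y k)` and
`‖holPart k‖ = 1` for `k ∈ SO(2)`). -/
def F1SoftOfC626 : Prop :=
  H830.CartanCC →
    ∀ (c : ℂ) (n : ℤ), n = 1 ∨ n = -1 →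
      ∀ φ : GL (Fin 2) ℂ → ℂ, IsArchTestC φ → IsSoftR626 n (abelF1_626 c n φ)

/-! ## 4. Leaves: the Abel relation -/

/-- **T6.20a.7 RAD-INT-0** (Mathlib only; polar coordinates in `ℝ²`, then `X = √(A² + r²)`):
`∫∫ Φ(√(A² + α x² + β v²)) / √(A² + α x² + β v²) dv dx = (2π / √(αβ)) ∫_{X > A} Φ(X) dX`. -/
def RadInt0C626 : Prop :=
  ∀ Φ : ℝ → ℂ, Continuous Φ → (∃ R : ℝ, ∀ X : ℝ, R < X → Φ X = 0) →
    ∀ A α β : ℝ, 0 < A → 0 < α → 0 < β →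
      (∫ x : ℝ, ∫ v : ℝ, Φ (Real.sqrt (A ^ 2 + α * x ^ 2 + β * v ^ 2)) /
          ((Real.sqrt (A ^ 2 + α * x ^ 2 + β * v ^ 2) : ℝ) : ℂ))
        = ((2 * Real.pi / Real.sqrt (α * β) : ℝ) : ℂ) * ∫ X in Set.Ioi A, Φ X

/-- **T6.20a.8 RAD-INT-1** (Mathlib only; for fixed `X`:
`∫_{-L}^{L} dx / ((A² + x²) √(L² - x²)) = π / (A √(A² + L²))`):
`∫∫ Φ(√(A² + α x² + β v²)) / (A² + α x²) dv dx = (2π / (A √(αβ))) ∫_{X > A} Φ(X) dX`. -/
def RadInt1C626 : Prop :=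
  ∀ Φ : ℝ → ℂ, Continuous Φ → (∃ R : ℝ, ∀ X : ℝ, R < X → Φ X = 0) →
    ∀ A α β : ℝ, 0 < A → 0 < α → 0 < β →
      (∫ x : ℝ, ∫ v : ℝ, Φ (Real.sqrt (A ^ 2 + α * x ^ 2 + β * v ^ 2)) /
          ((A ^ 2 + α * x ^ 2 : ℝ) : ℂ))
        = ((2 * Real.pi / (A * Real.sqrt (α * β)) : ℝ) : ℂ) * ∫ X in Set.Ioi A, Φ X

/-- One half of the Abel relation: `∫_ℝ f(!![a, a x; 0, b]) dx = c ∫_ℂ φ(!![√a, √a w; 0, √b]) dw`
for all `a, b > 0`. -/
def IsAbelHalf626 (c : ℂ) (φ : GL (Fin 2) ℂ → ℂ) (f : GL (Fin 2) ℝ → ℂ) : Prop :=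
  ∀ a b : ℝ, 0 < a → 0 < b →
    ∀ (u : ℝ → GL (Fin 2) ℝ) (u' : ℂ → GL (Fin 2) ℂ),
      (∀ x : ℝ, ((u x : GL (Fin 2) ℝ) : Matrix (Fin 2) (Fin 2) ℝ) = !![a, a * x; 0, b]) →
      (∀ w : ℂ, ((u' w : GL (Fin 2) ℂ) : Matrix (Fin 2) (Fin 2) ℂ)
        = !![((Real.sqrt a : ℝ) : ℂ), ((Real.sqrt a : ℝ) : ℂ) * w; 0, ((Real.sqrt b : ℝ) : ℂ)]) →
      (∫ x : ℝ, f (u x)) = c * ∫ w : ℂ, φ (u' w)

/-- **T6.20a.9 F0-ABEL**: the Abel relation for the closed form of weight `0`.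
(`y = !![a, a x; 0, b]`: `det = a b`, `x_v² = A² + (a/(4b)) x² + v²/2`, `A = (a+b)/(2√(ab))`;
`φ(M_v(y)) = Φ(x_v)` with the profile `Φ(cosh s) = φ(bC ζ s 0)`, `e^ζ = √(ab)`
[`famAlg626`, `CartanCC`]; `RadInt0C626` with `α = a/(4b)`, `β = 1/2`; the right side is
`WIntCC` with `Ψ = 1`, `r = log √(a/b)`, and `X = cosh s`.) -/
def F0AbelOfC626 : Prop :=
  H830.CartanCC → H830.WIntCC → RadInt0C626 →
    ∀ (c : ℂ) (φ : GL (Fin 2) ℂ → ℂ), IsArchTestC φ → IsAbelHalf626 c φ (abelF0_626 c φ)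

/-- **T6.20a.10 F1-ABEL**: the Abel relation for the closed form of weight `n = ±1`.
(`j_n(y) = (a + b) ± i a x`; the imaginary part is odd in `x`; `ρ + 1 = 2 (A² + (a/(4b)) x²)`;
`RadInt1C626`.) -/
def F1AbelOfC626 : Prop :=
  H830.CartanCC → H830.WIntCC → RadInt1C626 →
    ∀ (c : ℂ) (n : ℤ), n = 1 ∨ n = -1 →
      ∀ φ : GL (Fin 2) ℂ → ℂ, IsArchTestC φ → IsAbelHalf626 c φ (abelF1_626 c n φ)

/-! ## 5. PROVED: tops -/

theorem abelF0_pos626 (c : ℂ) (φ : GL (Fin 2) ℂ → ℂ) (g : GL (Fin 2) ℝ)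
    (h : abelF0_626 c φ g ≠ 0) : 0 < (g : Matrix (Fin 2) (Fin 2) ℝ).det := by
  by_contra h0
  exact h (by rw [abelF0_626, if_neg h0])

theorem abelF1_pos626 (c : ℂ) (n : ℤ) (φ : GL (Fin 2) ℂ → ℂ) (g : GL (Fin 2) ℝ)
    (h : abelF1_626 c n φ g ≠ 0) : 0 < (g : Matrix (Fin 2) (Fin 2) ℝ).det := by
  by_contra h0
  exact h (by rw [abelF1_626, if_neg h0])

/-- A test function from its soft and smooth fields. -/
theorem isArchTestR_of_fields626 {n : ℤ} {f : GL (Fin 2) ℝ → ℂ} (hs : IsSoftR626 n f)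
    (hm : IsSmoothR626 f) (hp : ∀ g : GL (Fin 2) ℝ, f g ≠ 0 → 0 < (g : Matrix (Fin 2) (Fin 2) ℝ).det) :
    IsArchTestR n f :=
  ⟨hs.1, hs.2.1, hm, hp, hs.2.2.1, hs.2.2.2⟩

/-- The Abel relation from its two halves. -/
theorem isAbelRel_of_halves626 {c : ℂ} {φ : GL (Fin 2) ℂ → ℂ} {f₀ f₁ : GL (Fin 2) ℝ → ℂ}
    (h0 : IsAbelHalf626 c φ f₀) (h1 : IsAbelHalf626 c φ f₁) : IsAbelRel626 c φ f₀ f₁ :=
  fun a b ha hb u u' hu hu' => ⟨h0 a b ha hb u u' hu hu', h1 a b ha hb u u' hu hu'⟩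

/-- **TOP of the station T6.20a, route H**: `AbelExistC626` from the ten leaves and the two DONE
Props `H830.CartanCC` (helper283), `H830.WIntCC` (helper841). -/
theorem abelExist_of_routeH626 (hC : H830.CartanCC) (hW : H830.WIntCC)
    (hFam : FamSmoothC626) (hPar : ParamIntC626)
    (hS0 : F0SmoothOfC626) (hS1 : F1SmoothOfC626)
    (hT0 : F0SoftOfC626) (hT1 : F1SoftOfC626)
    (hR0 : RadInt0C626) (hR1 : RadInt1C626)
    (hA0 : F0AbelOfC626) (hA1 : F1AbelOfC626) : AbelExistC626 := by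
  intro c n hn φ hφ
  refine ⟨abelF0_626 c φ, abelF1_626 c n φ, ?_, ?_, ?_⟩
  · exact isArchTestR_of_fields626 (hT0 hC c φ hφ) (hS0 hFam hPar c φ hφ) (abelF0_pos626 c φ)
  · exact isArchTestR_of_fields626 (hT1 hC c n hn φ hφ) (hS1 hFam hPar c n hn φ hφ)
      (abelF1_pos626 c n φ)
  · exact isAbelRel_of_halves626 (hA0 hC hW hR0 c φ hφ) (hA1 hC hW hR1 c n hn φ hφ)

end Fermat.Agent.LT.T6.H626

end
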