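import Mathlib
import Fermat.Agent.LT.T6.H626.AbelCut

/-!
# Row LT, tower T6, station T6.20a, route H: the ALGEBRA of the Hermitian family (helper626)

OFF-MAIN.  `famAlg626`: for `det y > 0`, `det M_v(y) = √(det y)`, `toGLC626 (M_v(y))` has matrix
`M_v(y)`, `rhoC (M_v(y)) = x_v`, `|det| = √(det y)`.  Also `one_le_rhoM626`, `one_le_xv626`.
-/

set_option autoImplicit false

open scoped Matrix

noncomputable section

namespace Fermat.Agent.LT.T6.H626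

open Fermat.Agent.LT.T6

/-- The model matrix `s • [[p, q - i v], [q + i v, r]]` with real `s, p, q, v, r`. -/
def hermMat626 (s p q v r : ℝ) : Matrix (Fin 2) (Fin 2) ℂ :=
  ((s : ℝ) : ℂ) • !![((p : ℝ) : ℂ), ((q : ℝ) : ℂ) - ((v : ℝ) : ℂ) * Complex.I;
    ((q : ℝ) : ℂ) + ((v : ℝ) : ℂ) * Complex.I, ((r : ℝ) : ℂ)]

theorem det_hermMat626 (s p q v r : ℝ) :
    (hermMat626 s p q v r).det = ((s ^ 2 * (p * r - q ^ 2 - v ^ 2) : ℝ) : ℂ) := by
  unfold hermMat626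
  rw [Matrix.det_fin_two]
  simp only [Matrix.smul_apply, Matrix.of_apply, Matrix.cons_val', Matrix.cons_val_zero,
    Matrix.cons_val_one, smul_eq_mul]
  push_cast
  ring_nf
  rw [Complex.I_sq]
  ring

theorem trace_hermMat626 (s p q v r : ℝ) :
    (((hermMat626 s p q v r).conjTranspose * hermMat626 s p q v r).trace).re
      = s ^ 2 * (p ^ 2 + r ^ 2 + 2 * q ^ 2 + 2 * v ^ 2) := by
  unfold hermMat626
  rw [Matrix.trace_fin_two]
  simp only [Matrix.mul_apply, Fin.sum_univ_two, Matrix.conjTranspose_apply, Matrix.smul_apply,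
    Matrix.of_apply, Matrix.cons_val', Matrix.cons_val_zero, Matrix.cons_val_one, smul_eq_mul,
    star_mul', Complex.star_def, Complex.conj_ofReal, map_sub, map_add, map_mul, Complex.conj_I]
  simp only [Complex.add_re, Complex.mul_re, Complex.sub_re, Complex.ofReal_re, Complex.ofReal_im,
    Complex.I_re, Complex.I_im, Complex.add_im, Complex.mul_im, Complex.sub_im, Complex.neg_re,
    Complex.neg_im]
  ring

theorem famMat_eq_herm626 (y : Matrix (Fin 2) (Fin 2) ℝ) (v : ℝ) :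
    famMat626 y v = hermMat626 (famScal626 y (xv626 (rhoM626 y) v))
      (Real.sqrt 2 * (xv626 (rhoM626 y) v + 1) + famH1_626 y) (famH2_626 y) v
      (Real.sqrt 2 * (xv626 (rhoM626 y) v + 1) - famH1_626 y) := rfl

/-- `tr(yᵀ y) = 2 det y + (y₀₀ - y₁₁)² + (y₀₁ + y₁₀)²`. -/
theorem trace_transpose_mul626 (y : Matrix (Fin 2) (Fin 2) ℝ) :
    (y.transpose * y).trace = 2 * y.det + ((y 0 0 - y 1 1) ^ 2 + (y 0 1 + y 1 0) ^ 2) := by
  rw [Matrix.trace_fin_two, Matrix.det_fin_two]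
  simp only [Matrix.mul_apply, Fin.sum_univ_two, Matrix.transpose_apply]
  ring

/-- `h₁² + h₂² = ρ - 1`. -/
theorem famH_sq626 (y : Matrix (Fin 2) (Fin 2) ℝ) (hy : 0 < y.det) :
    famH1_626 y ^ 2 + famH2_626 y ^ 2 = rhoM626 y - 1 := by
  have h2 : (0 : ℝ) ≤ 2 * y.det := by positivity
  unfold famH1_626 famH2_626 rhoM626
  rw [div_pow, div_pow, Real.sq_sqrt h2, abs_of_pos hy, trace_transpose_mul626]
  field_simp
  ring

theorem one_le_rhoM626 (y : Matrix (Fin 2) (Fin 2) ℝ) (hy : 0 < y.det) : 1 ≤ rhoM626 y := by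
  have h := famH_sq626 y hy
  nlinarith [sq_nonneg (famH1_626 y), sq_nonneg (famH2_626 y)]

theorem xv_sq626 (ρ v : ℝ) (hρ : 1 ≤ ρ) : xv626 ρ v ^ 2 = (ρ + 1 + v ^ 2) / 2 := by
  unfold xv626
  rw [Real.sq_sqrt]
  nlinarith [sq_nonneg v]

theorem one_le_xv626 (ρ v : ℝ) (hρ : 1 ≤ ρ) : 1 ≤ xv626 ρ v := by
  unfold xv626
  rw [show (1 : ℝ) = Real.sqrt 1 from Real.sqrt_one.symm]
  apply Real.sqrt_le_sqrt
  nlinarith [sq_nonneg v]

theorem famScal_sq626 (y : Matrix (Fin 2) (Fin 2) ℝ) (hy : 0 < y.det) (x : ℝ) (hx : 1 ≤ x) :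
    famScal626 y x ^ 2 * (4 * (x + 1)) = Real.sqrt y.det := by
  have hx1 : (0 : ℝ) < x + 1 := by linarith
  have hs : Real.sqrt (x + 1) ^ 2 = x + 1 := Real.sq_sqrt hx1.le
  have hs0 : Real.sqrt (x + 1) ≠ 0 := (Real.sqrt_pos.2 hx1).ne'
  have hd : Real.sqrt (Real.sqrt y.det) ^ 2 = Real.sqrt y.det := Real.sq_sqrt (Real.sqrt_nonneg _)
  unfold famScal626
  rw [div_pow, mul_pow, hd, hs]
  field_simp
  ring

/-- **The algebra of the Hermitian family.** -/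
theorem famAlg626 (y : Matrix (Fin 2) (Fin 2) ℝ) (hy : 0 < y.det) (v : ℝ) :
    (famMat626 y v).det = ((Real.sqrt y.det : ℝ) : ℂ) ∧
    ((toGLC626 (famMat626 y v) : GL (Fin 2) ℂ) : Matrix (Fin 2) (Fin 2) ℂ) = famMat626 y v ∧
    rhoC (toGLC626 (famMat626 y v)) = xv626 (rhoM626 y) v ∧
    ‖((toGLC626 (famMat626 y v) : GL (Fin 2) ℂ) : Matrix (Fin 2) (Fin 2) ℂ).det‖
      = Real.sqrt y.det := by
  have hρ := one_le_rhoM626 y hy
  have hx := one_le_xv626 (rhoM626 y) v hρ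
  have hx2 := xv_sq626 (rhoM626 y) v hρ
  have hH := famH_sq626 y hy
  have hS := famScal_sq626 y hy _ hx
  have h2 : Real.sqrt 2 ^ 2 = 2 := Real.sq_sqrt (by norm_num)
  have hD : 0 < Real.sqrt y.det := Real.sqrt_pos.2 hy
  set x := xv626 (rhoM626 y) v with hxdef
  set s := famScal626 y x with hsdef
  set h₁ := famH1_626 y
  set h₂ := famH2_626 y
  have hdet : (famMat626 y v).det = ((Real.sqrt y.det : ℝ) : ℂ) := by
    rw [famMat_eq_herm626, det_hermMat626]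
    congr 1
    have e1 : (Real.sqrt 2 * (x + 1) + h₁) * (Real.sqrt 2 * (x + 1) - h₁) - h₂ ^ 2 - v ^ 2
        = 4 * (x + 1) := by
      have : (Real.sqrt 2 * (x + 1) + h₁) * (Real.sqrt 2 * (x + 1) - h₁) - h₂ ^ 2 - v ^ 2
          = Real.sqrt 2 ^ 2 * (x + 1) ^ 2 - (h₁ ^ 2 + h₂ ^ 2) - v ^ 2 := by ring
      rw [this, h2, hH]
      nlinarith
    rw [e1]
    exact hS
  have hne : (famMat626 y v).det ≠ 0 := by
    rw [hdet]
    exact Complex.ofReal_ne_zero.2 hD.ne'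
  have hcoe : ((toGLC626 (famMat626 y v) : GL (Fin 2) ℂ) : Matrix (Fin 2) (Fin 2) ℂ)
      = famMat626 y v := by
    unfold toGLC626
    rw [dif_pos hne]
    rfl
  have hnorm : ‖((toGLC626 (famMat626 y v) : GL (Fin 2) ℂ) : Matrix (Fin 2) (Fin 2) ℂ).det‖
      = Real.sqrt y.det := by
    rw [hcoe, hdet, Complex.norm_real, Real.norm_of_nonneg hD.le]
  refine ⟨hdet, hcoe, ?_, hnorm⟩
  unfold rhoC
  rw [hnorm, hcoe, famMat_eq_herm626, trace_hermMat626]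
  have e2 : (Real.sqrt 2 * (x + 1) + h₁) ^ 2 + (Real.sqrt 2 * (x + 1) - h₁) ^ 2 + 2 * h₂ ^ 2
      + 2 * v ^ 2 = 8 * x * (x + 1) := by
    have : (Real.sqrt 2 * (x + 1) + h₁) ^ 2 + (Real.sqrt 2 * (x + 1) - h₁) ^ 2 + 2 * h₂ ^ 2
        + 2 * v ^ 2 = 2 * Real.sqrt 2 ^ 2 * (x + 1) ^ 2 + 2 * (h₁ ^ 2 + h₂ ^ 2) + 2 * v ^ 2 := by
      ring
    rw [this, h2, hH]
    nlinarith
  rw [e2]
  have e3 : s ^ 2 * (8 * x * (x + 1)) = 2 * x * Real.sqrt y.det := by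
    rw [← hS]
    ring
  rw [e3]
  field_simp

end Fermat.Agent.LT.T6.H626

end
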