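import Fermat.Agent.LT.T6.H626.Closed626c
import Fermat.Agent.LT.T6.H3.F0Soft
import Fermat.Agent.LT.T6.H922.F1Soft
import Fermat.Agent.LT.T6.H904.F0Abel
import Fermat.Agent.LT.T6.H944.F1Abel

/-!
# Row LT, tower T6, station T6.20 (`ArchMatchC`): INTEGRATION v4 (helper626)

OFF-MAIN.  ONE closure, byte-identical copies.  Added to `Closed626c.lean` (v3):

| Prop | owner | file |
|---|---|---|
| `F0SoftOfC626` (T6.20a.5) | helper3 | `T6/H3/F0Soft.lean` |
| `F1SoftOfC626` (T6.20a.6) | helper922 | `T6/H922/F1Soft.lean` |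
| `F0AbelOfC626` (T6.20a.9) | helper904 | `T6/H904/F0Abel.lean` |
| `F1AbelOfC626` (T6.20a.10) | helper944 | `T6/H944/F1Abel.lean` |

**CLOSED: T6.20a `abelExistC626_closed : AbelExistC626`** (route H, UNCONDITIONAL), and T6.20c.

OPEN (hypotheses of `archMatchC_open626d`): `H820.HypIwaC820` (T6.20d),
`H634.ProfAbelC634`, `H634.EllRealC634`, `H634.EllTwC634` (T6.20e.2c, 2d, 2e).
-/

set_option autoImplicit false

noncomputable section

namespace Fermat.Agent.LT.T6.H626

open Fermat.Agent.LT.T6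

/-- **T6.20a CLOSED (route H): existence of `f₀`, `f₁` in the Abel relation.** -/
theorem abelExistC626_closed : AbelExistC626 :=
  abelExist_open626b H3.f0SoftOf3 H922.f1SoftOfC922 H904.f0AbelOfC904 H944.f1AbelOf944

/-- **T6.20 from the leaves still open (v4).** -/
theorem archMatchC_open626d (hM : H820.HypIwaC820)
    (hP : H634.ProfAbelC634) (hR : H634.EllRealC634) (hT : H634.EllTwC634) : ArchMatchC :=
  archMatchC_open626c H3.f0SoftOf3 H922.f1SoftOfC922 H904.f0AbelOfC904 H944.f1AbelOf944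
    hM hP hR hT

end Fermat.Agent.LT.T6.H626

end
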