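import Fermat.Agent.LT.T6.H626.Running626
import Fermat.Agent.LT.T6.H283.FamSmooth
import Fermat.Agent.LT.T6.H698.ParamInt
import Fermat.Agent.LT.T6.H290.F0Smooth
import Fermat.Agent.LT.T6.H501.RadInt0
import Fermat.Agent.LT.T6.H830.HCClosed3

/-!
# Row LT, tower T6, station T6.20 (`ArchMatchC`): INTEGRATION of the closed leaves (helper626)

OFF-MAIN.  ONE closure, byte-identical copies of the leaf files.

| Prop | owner | file | state |
|---|---|---|---|
| `SpecRelC626` (T6.20c = T6.29) | helper830 | `T6/H830/HCClosed3.lean` | CLOSED |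
| `FamSmoothC626` (T6.20a.1) | helper283 | `T6/H283/FamSmooth.lean` | CLOSED |
| `ParamIntC626` (T6.20a.2) | helper698 | `T6/H698/ParamInt.lean` | CLOSED |
| `F0SmoothOfC626` (T6.20a.3) | helper290 | `T6/H290/F0Smooth.lean` | CLOSED |
| `RadInt0C626` (T6.20a.7) | helper501 | `T6/H501/RadInt0.lean` | CLOSED |
| `famAlg626`, tops | helper626 | `T6/H626/*.lean` | CLOSED |
| `CartanCC`, `WIntOfC` | helper283, helper841 | `T6/H283`, `T6/H841` | CLOSED |

OPEN (hypotheses of `archMatchC_open626`): `F1SmoothOfC626`, `F0SoftOfC626`, `F1SoftOfC626`,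
`RadInt1C626`, `F0AbelOfC626`, `F1AbelOfC626` (T6.20a.4, 5, 6, 8, 9, 10), `H634.HypExplC634`
(T6.20d), `H634.EllValueC634` (T6.20e.2).
-/

set_option autoImplicit false

noncomputable section

namespace Fermat.Agent.LT.T6.H626

open Fermat.Agent.LT.T6

/-- The smooth field of the closed form of weight `0` (closed). -/
theorem f0Smooth_closed626 (c : ℂ) (φ : GL (Fin 2) ℂ → ℂ) (hφ : IsArchTestC φ) :
    IsSmoothR626 (abelF0_626 c φ) :=
  H290.f0SmoothOfC290 H283.famSmoothC283 H698.paramIntC698 c φ hφ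

/-- **T6.20a from the leaves still open.** -/
theorem abelExist_open626 (hS1 : F1SmoothOfC626) (hT0 : F0SoftOfC626) (hT1 : F1SoftOfC626)
    (hR1 : RadInt1C626) (hA0 : F0AbelOfC626) (hA1 : F1AbelOfC626) : AbelExistC626 :=
  abelExist_running626 H283.famSmoothC283 H698.paramIntC698 H290.f0SmoothOfC290 hS1 hT0 hT1
    Fermat.Agent.LT.H501.Rad.radInt0C501 hR1 hA0 hA1

/-- **T6.20 from the leaves still open.** -/
theorem archMatchC_open626 (hS1 : F1SmoothOfC626) (hT0 : F0SoftOfC626) (hT1 : F1SoftOfC626)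
    (hR1 : RadInt1C626) (hA0 : F0AbelOfC626) (hA1 : F1AbelOfC626)
    (hH : H634.HypExplC634) (hE : H634.EllValueC634) : ArchMatchC :=
  H634.archMatchC_of_expl634 (abelExist_open626 hS1 hT0 hT1 hR1 hA0 hA1) hH hE
    H830.specRelC626_830

end Fermat.Agent.LT.T6.H626

end
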