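import Fermat.Agent.LT.T6.H626.Closed626
import Fermat.Agent.LT.T6.H729.F1Smooth
import Fermat.Agent.LT.T6.H439.RadInt1

/-!
# Row LT, tower T6, station T6.20 (`ArchMatchC`): INTEGRATION v2 (helper626)

OFF-MAIN.  ONE closure, byte-identical copies.  Added to `Closed626.lean` (v1):

| Prop | owner | file |
|---|---|---|
| `F1SmoothOfC626` (T6.20a.4) | helper729 | `T6/H729/F1Smooth.lean` |
| `RadInt1C626` (T6.20a.8) | helper439 | `T6/H439/RadInt1.lean`, `RadInt1Core.lean` |

OPEN (hypotheses of `archMatchC_open626b`): `F0SoftOfC626`, `F1SoftOfC626`, `F0AbelOfC626`,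
`F1AbelOfC626` (T6.20a.5, 6, 9, 10), `H634.HypExplC634` (T6.20d), `H634.EllValueC634` (T6.20e.2).
-/

set_option autoImplicit false

noncomputable section

namespace Fermat.Agent.LT.T6.H626

open Fermat.Agent.LT.T6

/-- **T6.20a from the leaves still open (v2).** -/
theorem abelExist_open626b (hT0 : F0SoftOfC626) (hT1 : F1SoftOfC626)
    (hA0 : F0AbelOfC626) (hA1 : F1AbelOfC626) : AbelExistC626 :=
  abelExist_open626 H729.f1SmoothOf729 hT0 hT1 H439.radInt1C_h439 hA0 hA1

/-- **T6.20 from the leaves still open (v2).** -/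
theorem archMatchC_open626b (hT0 : F0SoftOfC626) (hT1 : F1SoftOfC626)
    (hA0 : F0AbelOfC626) (hA1 : F1AbelOfC626)
    (hH : H634.HypExplC634) (hE : H634.EllValueC634) : ArchMatchC :=
  archMatchC_open626 H729.f1SmoothOf729 hT0 hT1 H439.radInt1C_h439 hA0 hA1 hH hE

end Fermat.Agent.LT.T6.H626

end
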