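import Fermat.Agent.LT.T6.H626.Closed626b
import Fermat.Agent.LT.T6.H634.EllCut2
import Fermat.Agent.LT.T6.H634.EllNorm
import Fermat.Agent.LT.T6.H634.BoxPos
import Fermat.Agent.LT.T6.H189.ArchIntClosed
import Fermat.Agent.LT.T6.H781.EllId
import Fermat.Agent.LT.T6.H820.CStar

/-!
# Row LT, tower T6, station T6.20 (`ArchMatchC`): INTEGRATION v3 (helper626)

OFF-MAIN.  ONE closure, byte-identical copies.  Added to `Closed626b.lean` (v2):

| Prop | owner | file |
|---|---|---|
| `H189.ArchIntOut` (T6.23) | helper189 | `T6/H189/ArchIntClosed.lean` |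
| `H781.ArchEllIdC` (T6.28) | helper781 | `T6/H781/EllId.lean` |
| `H634.EllNormC634`, `H634.BoxPosC634`, top `ellValue_of634` | helper634 | `T6/H634/*.lean` |
| adapter `hypExpl_of_iwa820` | helper820 | `T6/H820/CStar.lean` |

OPEN (hypotheses of `archMatchC_open626c`):
* T6.20a route H: `F0SoftOfC626`, `F1SoftOfC626`, `F0AbelOfC626`, `F1AbelOfC626`;
* T6.20d: `H820.HypIwaC820`;
* T6.20e: `H634.ProfAbelC634`, `H634.EllRealC634`, `H634.EllTwC634`.
-/

set_option autoImplicit false

noncomputable section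

namespace Fermat.Agent.LT.T6.H626

open Fermat.Agent.LT.T6

/-- **T6.20e.2 from the leaves still open.** -/
theorem ellValue_open626c (hP : H634.ProfAbelC634) (hR : H634.EllRealC634)
    (hT : H634.EllTwC634) : H634.EllValueC634 :=
  H634.ellValue_of634 H189.archIntOut189 H634.ellNormC634 H634.boxPosC634 hP
    H781.archEllId781 (fun _ => hR) (fun _ => hT)

/-- **T6.20d (explicit form) from the leaf still open.** -/
theorem hypExpl_open626c (hM : H820.HypIwaC820) : H634.HypExplC634 :=
  H820.hypExpl_of_iwa820 H189.archIntOut189.iwaR H189.archIntOut189.haarU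
    H189.archIntOut189.iwaC hM

/-- **T6.20 from the leaves still open (v3).** -/
theorem archMatchC_open626c (hT0 : F0SoftOfC626) (hT1 : F1SoftOfC626)
    (hA0 : F0AbelOfC626) (hA1 : F1AbelOfC626)
    (hM : H820.HypIwaC820)
    (hP : H634.ProfAbelC634) (hR : H634.EllRealC634) (hT : H634.EllTwC634) : ArchMatchC :=
  archMatchC_open626b hT0 hT1 hA0 hA1 (hypExpl_open626c hM) (ellValue_open626c hP hR hT)

end Fermat.Agent.LT.T6.H626

end
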