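import Fermat.Agent.LT.T6.H626.Closed626d
import Fermat.Agent.LT.T6.H855.HypExplClosed
import Fermat.Agent.LT.T6.H833.ProfAbel

/-!
# Row LT, tower T6, station T6.20 (`ArchMatchC`): INTEGRATION v5 (helper626)

OFF-MAIN.  ONE closure, byte-identical copies.  Added to `Closed626d.lean` (v4):

| Prop | owner | file |
|---|---|---|
| `H634.HypExplC634` (T6.20d, explicit constant) | helper855 | `T6/H855/HypExplClosed.lean` (+ 14 files) |
| `H634.ProfAbelC634` (T6.20e.2c) | helper833 | `T6/H833/ProfAbel.lean`, `ProfBasic.lean` |

CLOSED: T6.20a (`abelExistC626_closed`), T6.20c (`H830.specRelC626_830`), T6.20d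
(`H855.hypExplC_closed855`).

OPEN (hypotheses of `archMatchC_open626e`): `H634.EllRealC634`, `H634.EllTwC634`
(T6.20e.2d, 2e).
-/

set_option autoImplicit false

noncomputable section

namespace Fermat.Agent.LT.T6.H626

open Fermat.Agent.LT.T6

/-- **T6.20b `GeoMatchC626` from the two leaves still open.** -/
theorem geoMatch_open626e (hR : H634.EllRealC634) (hT : H634.EllTwC634) : GeoMatchC626 :=
  H634.geoMatch_of_expl634 H855.hypExplC_closed855
    (ellValue_open626c H833.profAbelC833 hR hT)

/-- **T6.20 from the leaves still open (v5).** -/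
theorem archMatchC_open626e (hR : H634.EllRealC634) (hT : H634.EllTwC634) : ArchMatchC :=
  H634.archMatchC_of_expl634 abelExistC626_closed H855.hypExplC_closed855
    (ellValue_open626c H833.profAbelC833 hR hT) H830.specRelC626_830

end Fermat.Agent.LT.T6.H626

end
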