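import Fermat.Agent.LT.T6.H626.Closed626e
import Fermat.Agent.LT.T6.H75.EllTwClosed

/-!
# Row LT, tower T6, station T6.20 (`ArchMatchC`): INTEGRATION v6 (helper626)

OFF-MAIN.  ONE closure, byte-identical copies.  Added to `Closed626e.lean` (v5):

| Prop | owner | file |
|---|---|---|
| `H634.EllTwC634` (T6.20e.2e) | helper75 | `T6/H75/EllTwClosed.lean` (+ leaves of 967 379 820 771 142 559) |

OPEN (hypothesis of `archMatchC_open626f`): `H634.EllRealC634` (T6.20e.2d) ONLY.
-/

set_option autoImplicit false

noncomputable section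

namespace Fermat.Agent.LT.T6.H626

open Fermat.Agent.LT.T6

/-- **T6.20 from the ONE leaf still open (v6).** -/
theorem archMatchC_open626f (hR : H634.EllRealC634) : ArchMatchC :=
  archMatchC_open626e hR H75.ellTwC634_75

end Fermat.Agent.LT.T6.H626

end
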