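import Fermat.Agent.LT.T6.H626.FamAlg
import Fermat.Agent.LT.T6.H634.EllCut
import Fermat.Agent.LT.T6.H830.HCClosed

/-!
# Row LT, tower T6, station T6.20 (`ArchMatchC`): RUNNING TOP (helper626, sub-architect)

OFF-MAIN.  ONE closure of byte-identical copies:

| part | file | owner |
|---|---|---|
| cut level 1+2 | `T6/H626/ArchCut.lean` (fac998d4) | helper626 |
| T6.20a route H | `T6/H626/AbelCut.lean` (6a4d529b), `FamAlg.lean` (9c407f7e) | helper626 |
| T6.20d/e explicit constant | `T6/H634/EllCut.lean` | helper634 |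
| T6.20c = T6.29 | `T6/H830/HCClosed.lean` + leaves | helper830 |

`archMatchC_running626` : `ArchMatchC` from the Props still OPEN.
-/

set_option autoImplicit false

noncomputable section

namespace Fermat.Agent.LT.T6.H626

open Fermat.Agent.LT.T6

/-- T6.20a from the ten leaves of route H (`CartanCC`, `WIntCC` are closed). -/
theorem abelExist_running626
    (hFam : FamSmoothC626) (hPar : ParamIntC626)
    (hS0 : F0SmoothOfC626) (hS1 : F1SmoothOfC626)
    (hT0 : F0SoftOfC626) (hT1 : F1SoftOfC626)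
    (hR0 : RadInt0C626) (hR1 : RadInt1C626)
    (hA0 : F0AbelOfC626) (hA1 : F1AbelOfC626) : AbelExistC626 :=
  abelExist_of_routeH626 H283.cartanCC283 (H841.wIntOf841 H283.cartanCC283)
    hFam hPar hS0 hS1 hT0 hT1 hR0 hR1 hA0 hA1

/-- **RUNNING TOP of the station T6.20**: `ArchMatchC` from the Props still open. -/
theorem archMatchC_running626
    (hFam : FamSmoothC626) (hPar : ParamIntC626)
    (hS0 : F0SmoothOfC626) (hS1 : F1SmoothOfC626)
    (hT0 : F0SoftOfC626) (hT1 : F1SoftOfC626)
    (hR0 : RadInt0C626) (hR1 : RadInt1C626)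
    (hA0 : F0AbelOfC626) (hA1 : F1AbelOfC626)
    (hH : H634.HypExplC634) (hE : H634.EllValueC634)
    (hIR : H830.IwasawaIntRC) (hIC : H830.IwasawaIntCC) (hAt : H830.SphAvgAtC)
    (hInt : H830.EisIntRC) : ArchMatchC :=
  H634.archMatchC_of_expl634
    (abelExist_running626 hFam hPar hS0 hS1 hT0 hT1 hR0 hR1 hA0 hA1) hH hE
    (H830.specRelC626_of_open830 hIR hIC hAt hInt)

end Fermat.Agent.LT.T6.H626

end
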